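/-
S25 / block D (Dictionary), geometry layer GEO-B: the charts of `C ×ₖ Spec A` are compatible with
base change `A → A'`.
-/
import Fermat.Agent.S25.ProductChartsDefs

set_option autoImplicit false

universe u

open CategoryTheory CategoryTheory.Limits AlgebraicGeometry AlgebraicGeometry.RelPicard
  NeronModelInfra TopologicalSpace
open scoped TensorProduct

namespace Fermat.Agent.S25.Geo

open Fermat.Agent.S25.Mod

variable {k : Type u} [Field k] {C : Scheme.{u}} {c : C ⟶ Spec (CommRingCat.of k)}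
  {ε : SchemeHomOver (𝟙 (Spec (CommRingCat.of k))) c}

namespace BaseChange

variable {A A' : Type u} [CommRing A] [Algebra k A] [CommRing A'] [Algebra k A']

theorem bc_fst (c : C ⟶ Spec (CommRingCat.of k)) (φ : A →ₐ[k] A') :
    baseChangeSnd c (affHom φ) ≫ pullback.fst c (sp k A) = pullback.fst c (sp k A') := by
  unfold baseChangeSnd pullback.map
  rw [pullback.lift_fst, Category.comp_id]

theorem bc_snd (c : C ⟶ Spec (CommRingCat.of k)) (φ : A →ₐ[k] A') :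
    baseChangeSnd c (affHom φ) ≫ pullback.snd c (sp k A) =
      pullback.snd c (sp k A') ≫ Spec.map (CommRingCat.ofHom φ.toRingHom) := by
  unfold baseChangeSnd pullback.map
  rw [pullback.lift_snd]
  rfl

theorem preimage_fst (c : C ⟶ Spec (CommRingCat.of k)) (φ : A →ₐ[k] A') (W : C.Opens) :
    baseChangeSnd c (affHom φ) ⁻¹ᵁ (pullback.fst c (sp k A) ⁻¹ᵁ W) =
      pullback.fst c (sp k A') ⁻¹ᵁ W := by
  rw [← Scheme.Hom.comp_preimage, bc_fst]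

/-- transport of `appLE` along an equality of morphisms -/
theorem appLE_of_eq {X Y : Scheme.{u}} {f g : X ⟶ Y} (e : f = g) (U : Y.Opens) (V : X.Opens)
    (h : V ≤ f ⁻¹ᵁ U) : f.appLE U V h = g.appLE U V (e ▸ h) := by
  subst e
  rfl

/-- elementwise form of `appLE_comp_appLE` -/
theorem appLE_appLE_apply {X Y Z : Scheme.{u}} (f : X ⟶ Y) (g : Y ⟶ Z) (U : Z.Opens) (V : Y.Opens)
    (W : X.Opens) (e₁ : V ≤ g ⁻¹ᵁ U) (e₂ : W ≤ f ⁻¹ᵁ V) (s : Γ(Z, U)) :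
    f.appLE V W e₂ (g.appLE U V e₁ s) =
      (f ≫ g).appLE U W (e₂.trans ((Opens.map f.base).map (homOfLE e₁)).le) s := by
  rw [← Scheme.Hom.appLE_comp_appLE]
  rfl

theorem specMap_appLE_top (φ : A →ₐ[k] A') (a : A) :
    (Spec.map (CommRingCat.ofHom φ.toRingHom)).appLE ⊤ ⊤ le_top
      ((Scheme.ΓSpecIso (CommRingCat.of A)).inv a) =
      (Scheme.ΓSpecIso (CommRingCat.of A')).inv (φ a) := by
  have h := Scheme.ΓSpecIso_inv_naturality (CommRingCat.ofHom φ.toRingHom)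
  have h2 := congrArg (fun m => m.hom a) h
  simp only [CommRingCat.hom_comp, RingHom.comp_apply] at h2
  have h3 : (Spec.map (CommRingCat.ofHom φ.toRingHom)).appLE ⊤ ⊤ le_top =
      (Spec.map (CommRingCat.ofHom φ.toRingHom)).appTop :=
    ((Spec.map (CommRingCat.ofHom φ.toRingHom)).app_eq_appLE (U := ⊤)).symm
  rw [h3]
  exact h2.symm

theorem appLE_tmulFun (c : C ⟶ Spec (CommRingCat.of k)) (φ : A →ₐ[k] A') (W : C.Opens)
    (V : (pullback c (sp k A)).Opens) (h : V ≤ pullback.fst c (sp k A) ⁻¹ᵁ W)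
    (V' : (pullback c (sp k A')).Opens) (h' : V' ≤ pullback.fst c (sp k A') ⁻¹ᵁ W)
    (hVV' : V' ≤ baseChangeSnd c (affHom φ) ⁻¹ᵁ V) (a : A) (b : Γ(C, W)) :
    (baseChangeSnd c (affHom φ)).appLE V V' hVV' (tmulFun c A W V h a b) =
      tmulFun c A' W V' h' (φ a) b := by
  unfold tmulFun
  rw [map_mul]
  congr 1
  · refine (appLE_appLE_apply _ _ _ _ _ _ _ _).trans ?_
    rw [appLE_of_eq (bc_snd c φ)]
    refine Eq.trans ?_ (congrArg _ (specMap_appLE_top φ a))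
    exact (appLE_appLE_apply _ _ _ _ _ _ _ _).symm
  · refine (appLE_appLE_apply _ _ _ _ _ _ _ _).trans ?_
    rw [appLE_of_eq (bc_fst c φ)]

/-- the general statement: two ring isomorphisms given on pure tensors by `tmulFun` are
intertwined by the base change map. -/
theorem appLE_theta (c : C ⟶ Spec (CommRingCat.of k)) (φ : A →ₐ[k] A') (W : C.Opens)
    (V : (pullback c (sp k A)).Opens) (h : V ≤ pullback.fst c (sp k A) ⁻¹ᵁ W)
    (V' : (pullback c (sp k A')).Opens) (h' : V' ≤ pullback.fst c (sp k A') ⁻¹ᵁ W)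
    (hVV' : V' ≤ baseChangeSnd c (affHom φ) ⁻¹ᵁ V)
    {B : Type u} [CommRing B] [Algebra k B] (i : B → Γ(C, W))
    (θ : A ⊗[k] B ≃+* Γ(pullback c (sp k A), V)) (θ' : A' ⊗[k] B ≃+* Γ(pullback c (sp k A'), V'))
    (hθ : ∀ (a : A) (b : B), θ (a ⊗ₜ b) = tmulFun c A W V h a (i b))
    (hθ' : ∀ (a : A') (b : B), θ' (a ⊗ₜ b) = tmulFun c A' W V' h' a (i b))
    (r : A ⊗[k] B) :
    (baseChangeSnd c (affHom φ)).appLE V V' hVV' (θ r) =
      θ' (Algebra.TensorProduct.map φ (AlgHom.id k B) r) := by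
  induction r using TensorProduct.induction_on with
  | zero => simp
  | tmul a b =>
    rw [hθ, appLE_tmulFun c φ W V h V' h' hVV', Algebra.TensorProduct.map_tmul, hθ']
    rfl
  | add x y hx hy => rw [map_add, map_add, hx, hy, map_add, map_add]

end BaseChange

section BC

variable {G : GeomCharts c ε} {A A' : Type u} [CommRing A] [Algebra k A] [CommRing A']
  [Algebra k A'] (P : ProdChart G A) (P' : ProdChart G A') (φ : A →ₐ[k] A')

theorem le_bc₁ : P'.𝒰.U₁ ≤ baseChangeSnd c (affHom φ) ⁻¹ᵁ P.𝒰.U₁ := by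
  rw [P.hU₁, P'.hU₁, BaseChange.preimage_fst]

theorem le_bc₂ : P'.𝒰.U₂ ≤ baseChangeSnd c (affHom φ) ⁻¹ᵁ P.𝒰.U₂ := by
  rw [P.hU₂, P'.hU₂, BaseChange.preimage_fst]

theorem le_bc₁₂ : P'.𝒰.U₁₂ ≤ baseChangeSnd c (affHom φ) ⁻¹ᵁ P.𝒰.U₁₂ :=
  le_inf (inf_le_left.trans (le_bc₁ P P' φ)) (inf_le_right.trans (le_bc₂ P P' φ))

theorem appLE_θ₁ (r : G.𝔠.R₁ A) :
    (baseChangeSnd c (affHom φ)).appLE _ _ (le_bc₁ P P' φ) (P.θ₁ r) = P'.θ₁ (G.𝔠.bc₁ φ r) :=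
  BaseChange.appLE_theta c φ G.W₁ _ P.hU₁.le _ P'.hU₁.le (le_bc₁ P P' φ) G.i₁ P.θ₁ P'.θ₁
    P.tmul₁ P'.tmul₁ r

theorem appLE_θ₂ (r : G.𝔠.R₂ A) :
    (baseChangeSnd c (affHom φ)).appLE _ _ (le_bc₂ P P' φ) (P.θ₂ r) = P'.θ₂ (G.𝔠.bc₂ φ r) :=
  BaseChange.appLE_theta c φ G.W₂ _ P.hU₂.le _ P'.hU₂.le (le_bc₂ P P' φ) G.i₂ P.θ₂ P'.θ₂
    P.tmul₂ P'.tmul₂ r

theorem appLE_θ₁₂ (r : G.𝔠.R₁₂ A) :
    (baseChangeSnd c (affHom φ)).appLE _ _ (le_bc₁₂ P P' φ) (P.θ₁₂ r) = P'.θ₁₂ (G.𝔠.bc₁₂ φ r) :=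
  BaseChange.appLE_theta c φ (G.W₁ ⊓ G.W₂) _ _ _ _ (le_bc₁₂ P P' φ) G.i₁₂ P.θ₁₂ P'.θ₁₂
    P.tmul₁₂ P'.tmul₁₂ r

end BC

end Fermat.Agent.S25.Geo
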