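/-
S25 / block D (Dictionary), GEO-C: the rigidifying section in the chart `U₂` is `ev₀`.
(helper129)
-/
import Fermat.Agent.S25.ProductChartsDefs

set_option autoImplicit false

universe u

open CategoryTheory CategoryTheory.Limits AlgebraicGeometry AlgebraicGeometry.RelPicard
  NeronModelInfra TopologicalSpace
open scoped TensorProduct

namespace Fermat.Agent.S25.Geo

open Fermat.Agent.S25.Mod

variable {k : Type u} [Field k] {C : Scheme.{u}} {c : C ⟶ Spec (CommRingCat.of k)}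
  {ε : SchemeHomOver (𝟙 (Spec (CommRingCat.of k))) c}

namespace Rig

theorem rig_fst (c : C ⟶ Spec (CommRingCat.of k)) (ε : SchemeHomOver (𝟙 (Spec (CommRingCat.of k))) c)
    (A : Type u) [CommRing A] [Algebra k A] :
    rigSection c (sp k A) ε ≫ pullback.fst c (sp k A) = sp k A ≫ ε.1 :=
  pullback.lift_fst _ _ _

theorem rig_snd (c : C ⟶ Spec (CommRingCat.of k)) (ε : SchemeHomOver (𝟙 (Spec (CommRingCat.of k))) c)
    (A : Type u) [CommRing A] [Algebra k A] :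
    rigSection c (sp k A) ε ≫ pullback.snd c (sp k A) = 𝟙 _ :=
  pullback.lift_snd _ _ _

/-- `appLE` only depends on the morphism. -/
theorem appLE_of_eq {X Y : Scheme.{u}} {f g : X ⟶ Y} (h : f = g) (U : Y.Opens) (V : X.Opens)
    (e : V ≤ f ⁻¹ᵁ U) : f.appLE U V e = g.appLE U V (h ▸ e) := by
  subst h
  rfl

theorem id_appLE_top (X : Scheme.{u}) (e : (⊤ : X.Opens) ≤ (𝟙 X) ⁻¹ᵁ ⊤) :
    (𝟙 X : X ⟶ X).appLE ⊤ ⊤ e = 𝟙 _ := by
  simp only [Scheme.Hom.appLE, Scheme.Hom.id_app]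
  exact X.presheaf.map_id _

theorem id_appLE_top_apply (X : Scheme.{u}) (e : (⊤ : X.Opens) ≤ (𝟙 X) ⁻¹ᵁ ⊤) (x : Γ(X, ⊤)) :
    (𝟙 X : X ⟶ X).appLE ⊤ ⊤ e x = x := by
  rw [id_appLE_top]
  rfl

theorem appLE_appLE_apply {X Y Z : Scheme.{u}} (f : X ⟶ Y) (g : Y ⟶ Z) (U : Z.Opens) (V : Y.Opens)
    (W : X.Opens) (e₁ : V ≤ g ⁻¹ᵁ U) (e₂ : W ≤ f ⁻¹ᵁ V) (x : Γ(Z, U)) :
    f.appLE V W e₂ (g.appLE U V e₁ x) =
      (f ≫ g).appLE U W (e₂.trans ((Opens.map f.base).map (homOfLE e₁)).le) x := by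
  rw [← Scheme.Hom.appLE_comp_appLE]
  rfl

/-- two-step version: if `f ≫ g = h` then `f^# (g^# x) = h^# x`. -/
theorem appLE_appLE_of_eq {X Y Z : Scheme.{u}} (f : X ⟶ Y) (g : Y ⟶ Z) (h : X ⟶ Z)
    (hfg : f ≫ g = h) (U : Z.Opens) (V : Y.Opens) (W : X.Opens) (e₁ : V ≤ g ⁻¹ᵁ U)
    (e₂ : W ≤ f ⁻¹ᵁ V) (e₃ : W ≤ h ⁻¹ᵁ U) (x : Γ(Z, U)) :
    f.appLE V W e₂ (g.appLE U V e₁ x) = h.appLE U W e₃ x := by
  subst hfg
  exact appLE_appLE_apply f g U V W e₁ e₂ x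

end Rig

section Rig

variable {G : GeomCharts c ε} {A : Type u} [CommRing A] [Algebra k A] (P : ProdChart G A)

theorem le_rig : ⊤ ≤ rigSection c (sp k A) ε ⁻¹ᵁ P.𝒰.U₂ := by
  rw [P.hU₂, ← Scheme.Hom.comp_preimage, Rig.rig_fst, Scheme.Hom.comp_preimage]
  have h := G.pt_mem
  rw [top_le_iff] at h
  rw [h]
  exact le_rfl

theorem appLE_rig (r : G.𝔠.R₂ A) :
    (Scheme.ΓSpecIso (CommRingCat.of A)).hom
      ((rigSection c (sp k A) ε).appLE _ ⊤ (le_rig P) (P.θ₂ r)) = G.𝔠.ev₀ A r := by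
  induction r using TensorProduct.induction_on with
  | zero => simp only [map_zero]
  | add x y hx hy => simp only [map_add, hx, hy]
  | tmul a b =>
    rw [P.tmul₂, tmulFun, map_mul, map_mul]
    -- first factor
    have h1 : (rigSection c (sp k A) ε).appLE _ ⊤ (le_rig P)
        ((pullback.snd c (sp k A)).appLE ⊤ P.𝒰.U₂ le_top
          ((Scheme.ΓSpecIso (CommRingCat.of A)).inv a))
        = (Scheme.ΓSpecIso (CommRingCat.of A)).inv a := by
      refine (Rig.appLE_appLE_of_eq _ _ (𝟙 _) (Rig.rig_snd c ε A) _ _ _ _ _ le_top _).trans ?_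
      exact Rig.id_appLE_top_apply _ _ _
    -- second factor
    have h2 : (rigSection c (sp k A) ε).appLE _ ⊤ (le_rig P)
        ((pullback.fst c (sp k A)).appLE G.W₂ P.𝒰.U₂ P.hU₂.le (G.i₂ b))
        = (sp k A).appTop (ε.1.appLE G.W₂ ⊤ G.pt_mem (G.i₂ b)) := by
      have e₃ : (⊤ : (Spec (CommRingCat.of A)).Opens) ≤ (sp k A ≫ ε.1) ⁻¹ᵁ G.W₂ := by
        rw [Scheme.Hom.comp_preimage, top_le_iff.mp G.pt_mem]
        exact le_rfl
      refine (Rig.appLE_appLE_of_eq _ _ _ (Rig.rig_fst c ε A) _ _ _ _ _ e₃ _).trans ?_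
      refine (Rig.appLE_appLE_apply (sp k A) ε.1 G.W₂ ⊤ ⊤ G.pt_mem le_top _).symm.trans ?_
      rfl
    have h3 : ∀ z : Γ(Spec (CommRingCat.of k), ⊤),
        (Scheme.ΓSpecIso (CommRingCat.of A)).hom ((sp k A).appTop z)
          = algebraMap k A ((Scheme.ΓSpecIso (CommRingCat.of k)).hom z) := by
      intro z
      have h4 := Scheme.ΓSpecIso_naturality (CommRingCat.ofHom (algebraMap k A))
      exact ConcreteCategory.congr_hom h4 z
    have h5 : G.𝔠.ev₀ A (a ⊗ₜ b) = a * algebraMap k A (G.𝔠.e₀ b) := by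
      unfold CurveCharts.ev₀
      simp only [AlgHom.coe_comp, Function.comp_apply,
        Algebra.TensorProduct.map_tmul, AlgHom.coe_id, id_eq]
      refine (Algebra.TensorProduct.rid_tmul A (G.𝔠.e₀ b) a).trans ?_
      rw [Algebra.smul_def, mul_comm]
    rw [h1, h2, h3, G.pt_eval, h5]
    congr 1
    exact Iso.inv_hom_id_apply (Scheme.ΓSpecIso (CommRingCat.of A)) a

end Rig

end Fermat.Agent.S25.Geo
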