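/-
S25 / block D (Dictionary), GEO-A1: `Γ(C ×ₖ Spec A, pr₁⁻¹ W) = A ⊗[k] B` for `W = Spec B` affine.
Owner: helper125.
-/
import Fermat.Agent.S25.ProductChartsDefs

set_option autoImplicit false

universe u

open CategoryTheory CategoryTheory.Limits AlgebraicGeometry AlgebraicGeometry.RelPicard
  NeronModelInfra TopologicalSpace
open scoped TensorProduct

namespace Fermat.Agent.S25.Geo

open Fermat.Agent.S25.Mod

variable {k : Type u} [Field k] {C : Scheme.{u}} {c : C ⟶ Spec (CommRingCat.of k)}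
  {ε : SchemeHomOver (𝟙 (Spec (CommRingCat.of k))) c}

theorem isAffineOpen_fst_preimage (c : C ⟶ Spec (CommRingCat.of k)) (A : Type u) [CommRing A]
    [Algebra k A] {W : C.Opens} (hW : IsAffineOpen W) :
    IsAffineOpen (pullback.fst c (sp k A) ⁻¹ᵁ W) := by
  have : IsAffineHom (pullback.fst c (sp k A)) :=
    MorphismProperty.of_isPullback (P := @IsAffineHom)
      (IsPullback.of_hasPullback c (sp k A)).flip inferInstance
  exact hW.preimage _

theorem exists_chartIso (c : C ⟶ Spec (CommRingCat.of k)) (A : Type u) [CommRing A] [Algebra k A]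
    {W : C.Opens} (hW : IsAffineOpen W) (B : Type u) [CommRing B] [Algebra k B]
    (i : B ≃+* Γ(C, W))
    (str : ∀ a : k, i (algebraMap k B a) =
      c.appLE ⊤ W le_top ((Scheme.ΓSpecIso (CommRingCat.of k)).inv a))
    (V : (pullback c (sp k A)).Opens) (hV : V = pullback.fst c (sp k A) ⁻¹ᵁ W) :
    ∃ θ : A ⊗[k] B ≃+* Γ(pullback c (sp k A), V),
      ∀ (a : A) (b : B), θ (a ⊗ₜ b) = tmulFun c A W V hV.le a (i b) := by
  have H := IsPullback.of_hasPullback c (sp k A)
  have hUY : V = pullback.fst c (sp k A) ⁻¹ᵁ W ⊓ pullback.snd c (sp k A) ⁻¹ᵁ ⊤ := by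
    rw [hV]; simp
  have h1 := (isIso_pushoutSection_iff H (US := ⊤) (UT := ⊤) (UX := W) le_top le_top hUY).mp
    (isIso_pushoutSection_of_isAffineOpen H le_top le_top hUY (isAffineOpen_top _)
      (isAffineOpen_top _) hW)
  have h2 : IsPushout (CommRingCat.ofHom (algebraMap k A)) (CommRingCat.ofHom (algebraMap k B))
      ((Scheme.ΓSpecIso (CommRingCat.of A)).inv ≫ (pullback.snd c (sp k A)).appLE ⊤ V le_top)
      (CommRingCat.ofHom i.toRingHom ≫ (pullback.fst c (sp k A)).appLE W V hV.le) := by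
    refine h1.flip.of_iso' (Scheme.ΓSpecIso (CommRingCat.of k)).symm
      (Scheme.ΓSpecIso (CommRingCat.of A)).symm i.toCommRingCatIso (Iso.refl _) ?_ ?_ ?_ ?_
    · rw [Iso.symm_hom, Iso.symm_hom, Scheme.ΓSpecIso_inv_naturality]
      rfl
    · ext a
      exact (str a).symm
    · simp
    · simp
  let e := ((CommRingCat.isPushout_tensorProduct k A B).isoIsPushout _ _ h2)
  refine ⟨e.commRingCatIsoToRingEquiv, fun a b => ?_⟩
  have hl : ∀ a : A, e.hom (a ⊗ₜ 1) =
      (pullback.snd c (sp k A)).appLE ⊤ V le_top ((Scheme.ΓSpecIso (CommRingCat.of A)).inv a) :=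
    fun a => congr($((CommRingCat.isPushout_tensorProduct k A B).inl_isoIsPushout_hom _ _ h2).hom a)
  have hr : ∀ b : B, e.hom (1 ⊗ₜ b) = (pullback.fst c (sp k A)).appLE W V hV.le (i b) :=
    fun b => congr($((CommRingCat.isPushout_tensorProduct k A B).inr_isoIsPushout_hom _ _ h2).hom b)
  have hab : (a ⊗ₜ[k] b : A ⊗[k] B) = (a ⊗ₜ 1) * (1 ⊗ₜ b) := by simp
  change e.hom (a ⊗ₜ b) = _
  rw [hab, map_mul, hl, hr]
  rfl

end Fermat.Agent.S25.Geo
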