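/-
S25 / block D (Dictionary), GEO-A2: `W₁ ⊓ W₂ = D(x) = D(y)` in the curve.   Owner: helper297.
-/
import Fermat.Agent.S25.ProductChartsDefs

set_option autoImplicit false

universe u

open CategoryTheory CategoryTheory.Limits AlgebraicGeometry AlgebraicGeometry.RelPicard
  NeronModelInfra TopologicalSpace
open scoped TensorProduct

namespace Fermat.Agent.S25.Geo

open Fermat.Agent.S25.Mod

namespace Inter

/-- The range of `Spec` of a ring map which is, up to ring isomorphisms, a localization away from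
an element. -/
theorem range_comap_of_comm {R S R' S' : Type u} [CommRing R] [CommRing S] [CommRing R']
    [CommRing S'] [Algebra R S] (x : R) [IsLocalization.Away x S] (i : R ≃+* R') (j : S ≃+* S')
    (ρ : R' →+* S') (h : ∀ b, j (algebraMap R S b) = ρ (i b)) :
    Set.range (PrimeSpectrum.comap ρ) = (PrimeSpectrum.basicOpen (i x) : Set (PrimeSpectrum R')) := by
  ext p
  constructor
  · rintro ⟨q, rfl⟩
    change ρ (i x) ∉ q.asIdeal
    rw [← h]
    intro hq
    have hu : IsUnit (j (algebraMap R S x)) :=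
      (IsLocalization.Away.algebraMap_isUnit (S := S) x).map j
    exact q.isPrime.ne_top (Ideal.eq_top_of_isUnit_mem _ hq hu)
  · intro hp
    have hp' : PrimeSpectrum.comap (i : R →+* R') p ∈
        (PrimeSpectrum.basicOpen x : Set (PrimeSpectrum R)) := hp
    rw [← PrimeSpectrum.localization_away_comap_range S x] at hp'
    obtain ⟨q', hq'⟩ := hp'
    refine ⟨PrimeSpectrum.comap (j.symm : S' →+* S) q', ?_⟩
    ext r
    obtain ⟨b, rfl⟩ := i.surjective r
    have h1 : b ∈ (PrimeSpectrum.comap (algebraMap R S) q').asIdeal ↔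
        b ∈ (PrimeSpectrum.comap (i : R →+* R') p).asIdeal := by rw [hq']
    change j.symm (ρ (i b)) ∈ q'.asIdeal ↔ i b ∈ p.asIdeal
    rw [← h, RingEquiv.symm_apply_apply]
    exact h1

/-- An affine open `V ≤ U` of an affine open `U` such that the range of
`Spec Γ(V) → Spec Γ(U)` is `D(f)` is the basic open `D(f)`. -/
theorem eq_basicOpen_of_range {X : Scheme.{u}} {U V : X.Opens} (hU : IsAffineOpen U)
    (hV : IsAffineOpen V) (hVU : V ≤ U) (f : Γ(X, U))
    (h : Set.range (PrimeSpectrum.comap (X.presheaf.map (homOfLE hVU).op).hom) =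
      (PrimeSpectrum.basicOpen f : Set (PrimeSpectrum Γ(X, U)))) :
    V = X.basicOpen f := by
  rw [← hU.fromSpec_image_basicOpen]
  ext1
  have h1 := hU.map_fromSpec hV (homOfLE hVU).op
  have h2 : (V : Set X) = Set.range hV.fromSpec := hV.range_fromSpec.symm
  rw [h2, ← h1]
  change Set.range (hU.fromSpec ∘ PrimeSpectrum.comap (X.presheaf.map (homOfLE hVU).op).hom) =
    hU.fromSpec '' (PrimeSpectrum.basicOpen f : Set (PrimeSpectrum Γ(X, U)))
  rw [Set.range_comp]
  exact congrArg (fun s => hU.fromSpec '' s) h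

end Inter

variable {k : Type u} [Field k] {C : Scheme.{u}} {c : C ⟶ Spec (CommRingCat.of k)}
  {ε : SchemeHomOver (𝟙 (Spec (CommRingCat.of k))) c}

theorem inter_eq_basicOpen₁ (G : GeomCharts c ε) : G.W₁ ⊓ G.W₂ = C.basicOpen (G.i₁ G.𝔠.x) := by
  have := G.𝔠.away₁
  exact Inter.eq_basicOpen_of_range G.aff₁ G.aff₁₂ inf_le_left _
    (Inter.range_comap_of_comm G.𝔠.x G.i₁ G.i₁₂ _ G.res₁)

theorem inter_eq_basicOpen₂ (G : GeomCharts c ε) : G.W₁ ⊓ G.W₂ = C.basicOpen (G.i₂ G.𝔠.y) := by
  have := G.𝔠.away₂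
  exact Inter.eq_basicOpen_of_range G.aff₂ G.aff₁₂ inf_le_right _
    (Inter.range_comap_of_comm G.𝔠.y G.i₂ G.i₁₂ _ G.res₂)

end Fermat.Agent.S25.Geo
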