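/-
S25 / block D (Dictionary), GEO-A3: existence of the two-chart atlas of `C ×ₖ Spec A`.  (helper142)
-/
import Fermat.Agent.S25.ProductCharts.Chart
import Fermat.Agent.S25.ProductCharts.Inter

set_option autoImplicit false

universe u

open CategoryTheory CategoryTheory.Limits AlgebraicGeometry AlgebraicGeometry.RelPicard
  NeronModelInfra TopologicalSpace
open scoped TensorProduct

namespace Fermat.Agent.S25.Geo

open Fermat.Agent.S25.Mod

variable {k : Type u} [Field k] {C : Scheme.{u}} {c : C ⟶ Spec (CommRingCat.of k)}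
  {ε : SchemeHomOver (𝟙 (Spec (CommRingCat.of k))) c}

namespace Exists

/-- The structure map of `B₁₂`. -/
theorem str₁₂ (G : GeomCharts c ε) (a : k) : G.i₁₂ (algebraMap k G.𝔠.B₁₂ a) =
    c.appLE ⊤ (G.W₁ ⊓ G.W₂) le_top ((Scheme.ΓSpecIso (CommRingCat.of k)).inv a) := by
  rw [IsScalarTower.algebraMap_apply k G.𝔠.B₁ G.𝔠.B₁₂, G.res₁, G.str₁]
  have := Scheme.Hom.appLE_map c (U := ⊤) (V := G.W₁) le_top
    (homOfLE (inf_le_left : G.W₁ ⊓ G.W₂ ≤ G.W₁)).op
  exact congr($(this).hom ((Scheme.ΓSpecIso (CommRingCat.of k)).inv.hom a))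

/-- `tmulFun` with first argument `1`. -/
theorem tmulFun_one (A : Type u) [CommRing A] [Algebra k A]
    (W : C.Opens) (V : (pullback c (sp k A)).Opens) (h : V ≤ pullback.fst c (sp k A) ⁻¹ᵁ W)
    (b : Γ(C, W)) :
    tmulFun c A W V h 1 b = (pullback.fst c (sp k A)).appLE W V h b := by
  rw [tmulFun, map_one, map_one, one_mul]

/-- Restriction of `tmulFun`. -/
theorem res_tmulFun (A : Type u) [CommRing A] [Algebra k A]
    {W W' : C.Opens} (hW : W' ≤ W) {V V' : (pullback c (sp k A)).Opens} (hV : V' ≤ V)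
    (h : V ≤ pullback.fst c (sp k A) ⁻¹ᵁ W) (h' : V' ≤ pullback.fst c (sp k A) ⁻¹ᵁ W')
    (a : A) (b : Γ(C, W)) :
    rres _ hV (tmulFun c A W V h a b) =
      tmulFun c A W' V' h' a (C.presheaf.map (homOfLE hW).op b) := by
  rw [tmulFun, tmulFun, map_mul]
  congr 1
  · have := Scheme.Hom.appLE_map (pullback.snd c (sp k A)) (U := ⊤) (V := V) le_top (homOfLE hV).op
    exact congr($(this).hom ((Scheme.ΓSpecIso (CommRingCat.of A)).inv.hom a))
  · have h1 := Scheme.Hom.appLE_map (pullback.fst c (sp k A)) (U := W) (V := V) h (homOfLE hV).op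
    have h2 := Scheme.Hom.map_appLE (pullback.fst c (sp k A)) (U := W') (V := V') h'
      (homOfLE hW).op
    exact (congr($(h1).hom b)).trans (congr($(h2).hom b)).symm

end Exists

open _root_.Fermat.Agent.S25.Geo.Exists in
theorem nonempty_prodChart (G : GeomCharts c ε) (A : Type u) [CommRing A] [Algebra k A] :
    Nonempty (ProdChart G A) := by
  obtain ⟨θ₁, hθ₁⟩ := exists_chartIso c A G.aff₁ G.𝔠.B₁ G.i₁ G.str₁
    (pullback.fst c (sp k A) ⁻¹ᵁ G.W₁) rfl
  obtain ⟨θ₂, hθ₂⟩ := exists_chartIso c A G.aff₂ G.𝔠.B₂ G.i₂ G.str₂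
    (pullback.fst c (sp k A) ⁻¹ᵁ G.W₂) rfl
  obtain ⟨θ₁₂, hθ₁₂⟩ := exists_chartIso c A G.aff₁₂ G.𝔠.B₁₂ G.i₁₂ (str₁₂ G)
    (pullback.fst c (sp k A) ⁻¹ᵁ G.W₁ ⊓ pullback.fst c (sp k A) ⁻¹ᵁ G.W₂) rfl
  have hx : pullback.fst c (sp k A) ⁻¹ᵁ G.W₁ ⊓ pullback.fst c (sp k A) ⁻¹ᵁ G.W₂ =
      (pullback c (sp k A)).basicOpen (θ₁ (G.𝔠.xA A)) := by
    rw [CurveCharts.xA, hθ₁, tmulFun_one, Scheme.basicOpen_appLE, ← inter_eq_basicOpen₁ G]
    exact (inf_eq_right.mpr inf_le_left).symm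
  have hy : pullback.fst c (sp k A) ⁻¹ᵁ G.W₁ ⊓ pullback.fst c (sp k A) ⁻¹ᵁ G.W₂ =
      (pullback c (sp k A)).basicOpen (θ₂ (G.𝔠.yA A)) := by
    rw [CurveCharts.yA, hθ₂, tmulFun_one, Scheme.basicOpen_appLE, ← inter_eq_basicOpen₂ G]
    exact (inf_eq_right.mpr inf_le_right).symm
  have hcover : pullback.fst c (sp k A) ⁻¹ᵁ G.W₁ ⊔ pullback.fst c (sp k A) ⁻¹ᵁ G.W₂ = ⊤ := by
    have : pullback.fst c (sp k A) ⁻¹ᵁ (G.W₁ ⊔ G.W₂) = ⊤ := by rw [G.cover]; rfl
    exact this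
  refine ⟨{ 𝒰 := { U₁ := pullback.fst c (sp k A) ⁻¹ᵁ G.W₁
                   U₂ := pullback.fst c (sp k A) ⁻¹ᵁ G.W₂
                   aff₁ := isAffineOpen_fst_preimage c A G.aff₁
                   aff₂ := isAffineOpen_fst_preimage c A G.aff₂
                   x := θ₁ (G.𝔠.xA A)
                   y := θ₂ (G.𝔠.yA A)
                   inter₁ := hx
                   inter₂ := hy
                   cover := hcover }
            hU₁ := rfl
            hU₂ := rfl
            θ₁ := θ₁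
            θ₂ := θ₂
            θ₁₂ := θ₁₂
            tmul₁ := hθ₁
            tmul₂ := hθ₂
            tmul₁₂ := hθ₁₂
            res₁ := ?_
            res₂ := ?_
            hx := rfl
            hy := rfl }⟩
  · intro r
    induction r using TensorProduct.induction_on with
    | zero => simp only [map_zero]
    | add r s hr hs => simp only [map_add, hr, hs]
    | tmul a b =>
      have e : G.𝔠.res₁ A (a ⊗ₜ b) = a ⊗ₜ algebraMap G.𝔠.B₁ G.𝔠.B₁₂ b := by
        simp [CurveCharts.res₁]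
      refine (congrArg θ₁₂ e).trans ((hθ₁₂ _ _).trans ?_)
      refine Eq.trans ?_ (congrArg _ (hθ₁ a b)).symm
      rw [G.res₁]
      exact (res_tmulFun A inf_le_left _ _ _ a (G.i₁ b)).symm
  · intro r
    induction r using TensorProduct.induction_on with
    | zero => simp only [map_zero]
    | add r s hr hs => simp only [map_add, hr, hs]
    | tmul a b =>
      have e : G.𝔠.res₂ A (a ⊗ₜ b) = a ⊗ₜ algebraMap G.𝔠.B₂ G.𝔠.B₁₂ b := by
        simp [CurveCharts.res₂]
      refine (congrArg θ₁₂ e).trans ((hθ₁₂ _ _).trans ?_)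
      refine Eq.trans ?_ (congrArg _ (hθ₂ a b)).symm
      rw [G.res₂]
      exact (res_tmulFun A inf_le_right _ _ _ a (G.i₂ b)).symm

end Fermat.Agent.S25.Geo
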